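/-
S48 (Deligne-Serre), node A (nebentypus).  Sub-architect: helper166.
Basic definitions: the lower right entry modulo `N`, invariance under `Γ₁(N)`, and the formal
properties of the diamond action of `Γ₀(N)` on `Γ₁(N)`-invariant functions.   TASK A-1.
-/
import Mathlib
import Fermat.Prelude.Def_ModularForm_HeckeOperator

set_option autoImplicit false

namespace Fermat.Agent.S48.A

open CongruenceSubgroup UpperHalfPlane ModularForm
open scoped MatrixGroups ModularForm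

/-- The lower right entry modulo `N`. -/
def dd (N : ℕ) (γ : SL(2, ℤ)) : ZMod N := ((γ 1 1 : ℤ) : ZMod N)

variable {N : ℕ}

theorem dd_one : dd N 1 = 1 := by
  simp [dd]

theorem dd_mul {σ : SL(2, ℤ)} (hσ : σ ∈ Gamma0 N) (τ : SL(2, ℤ)) :
    dd N (σ * τ) = dd N σ * dd N τ := by
  have hc : ((σ 1 0 : ℤ) : ZMod N) = 0 := Gamma0_mem.mp hσ
  simp only [dd, Matrix.SpecialLinearGroup.coe_mul, Matrix.mul_apply, Fin.sum_univ_two]
  push_cast
  rw [hc, zero_mul, zero_add]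

theorem dd_pow {σ : SL(2, ℤ)} (hσ : σ ∈ Gamma0 N) (n : ℕ) : dd N (σ ^ n) = dd N σ ^ n := by
  induction n with
  | zero => rw [pow_zero, pow_zero, dd_one]
  | succ n ih => rw [pow_succ', pow_succ', dd_mul hσ, ih]

theorem dd_mul_dd_inv {σ : SL(2, ℤ)} (hσ : σ ∈ Gamma0 N) : dd N σ * dd N σ⁻¹ = 1 := by
  rw [← dd_mul hσ, mul_inv_cancel, dd_one]

theorem isUnit_dd {σ : SL(2, ℤ)} (hσ : σ ∈ Gamma0 N) : IsUnit (dd N σ) :=
  IsUnit.of_mul_eq_one _ (dd_mul_dd_inv hσ)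

theorem mem_Gamma1_iff {γ : SL(2, ℤ)} : γ ∈ Gamma1 N ↔ γ ∈ Gamma0 N ∧ dd N γ = 1 := by
  rw [Gamma1_mem, Gamma0_mem, dd]
  constructor
  · rintro ⟨_, h1, h2⟩
    exact ⟨h2, h1⟩
  · rintro ⟨h2, h1⟩
    refine ⟨?_, h1, h2⟩
    have hdet := γ.det_coe
    rw [Matrix.det_fin_two] at hdet
    have h3 := congrArg (Int.cast : ℤ → ZMod N) hdet
    push_cast at h3
    rw [h1, h2, mul_one, mul_zero, sub_zero] at h3
    exact h3

/-- Invariance under `Γ₁(N)` in weight `k`. -/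
def Inv1 (N : ℕ) (k : ℤ) (g : ℍ → ℂ) : Prop :=
  ∀ γ : SL(2, ℤ), γ ∈ Gamma1 N → g ∣[k] γ = g

variable {k : ℤ} {g h : ℍ → ℂ}

theorem Inv1.add (hg : Inv1 N k g) (hh : Inv1 N k h) : Inv1 N k (g + h) := by
  intro γ hγ
  rw [SlashAction.add_slash, hg γ hγ, hh γ hγ]

theorem Inv1.sub (hg : Inv1 N k g) (hh : Inv1 N k h) : Inv1 N k (g - h) := by
  intro γ hγ
  rw [sub_eq_add_neg, SlashAction.add_slash, SlashAction.neg_slash, hg γ hγ, hh γ hγ]

theorem Inv1.smul (hg : Inv1 N k g) (c : ℂ) : Inv1 N k (c • g) := by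
  intro γ hγ
  rw [ModularForm.SL_smul_slash, hg γ hγ]

/-- `Γ₁(N)` is normal in `Γ₀(N)`. -/
theorem Inv1.slash (hg : Inv1 N k g) {σ : SL(2, ℤ)} (hσ : σ ∈ Gamma0 N) :
    Inv1 N k (g ∣[k] σ) := by
  intro γ hγ
  have hγ' := mem_Gamma1_iff.mp hγ
  have hmem : σ * γ * σ⁻¹ ∈ Gamma1 N := by
    rw [mem_Gamma1_iff]
    refine ⟨Subgroup.mul_mem _ (Subgroup.mul_mem _ hσ hγ'.1) (Subgroup.inv_mem _ hσ), ?_⟩
    rw [dd_mul (Subgroup.mul_mem _ hσ hγ'.1), dd_mul hσ, hγ'.2, mul_one, dd_mul_dd_inv hσ]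
  have h1 : σ * γ = (σ * γ * σ⁻¹) * σ := by group
  rw [← SlashAction.slash_mul, h1, SlashAction.slash_mul, hg _ hmem]

/-- The diamond action only depends on the lower right entry modulo `N`. -/
theorem Inv1.slash_eq (hg : Inv1 N k g) {σ τ : SL(2, ℤ)} (hσ : σ ∈ Gamma0 N)
    (hτ : τ ∈ Gamma0 N) (h : dd N σ = dd N τ) : g ∣[k] σ = g ∣[k] τ := by
  have hmem : σ * τ⁻¹ ∈ Gamma1 N := by
    rw [mem_Gamma1_iff]
    refine ⟨Subgroup.mul_mem _ hσ (Subgroup.inv_mem _ hτ), ?_⟩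
    rw [dd_mul hσ, h, dd_mul_dd_inv hτ]
  have h1 : σ = (σ * τ⁻¹) * τ := by group
  conv_lhs => rw [h1]
  rw [SlashAction.slash_mul, hg _ hmem]

theorem inv1_coe (f : CuspForm (Gamma1 N) k) : Inv1 N k (f : ℍ → ℂ) := by
  intro γ hγ
  exact SlashInvariantFormClass.slash_action_eq f _
    (Subgroup.mem_map_of_mem (Matrix.SpecialLinearGroup.mapGL ℝ) hγ)

theorem Inv1.periodic (hg : Inv1 N k g) : Function.Periodic (g ∘ ofComplex) 1 := by
  let G : SlashInvariantForm (Gamma1 N : Subgroup (GL (Fin 2) ℝ)) k :=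
    { toFun := g
      slash_action_eq' := by
        rintro _ ⟨γ, hγ, rfl⟩
        exact hg γ hγ }
  have h1 : (1 : ℝ) ∈ (Gamma1 N : Subgroup (GL (Fin 2) ℝ)).strictPeriods := by simp
  have h2 : Function.Periodic ((G : ℍ → ℂ) ∘ ofComplex) ((1 : ℝ) : ℂ) :=
    SlashInvariantFormClass.periodic_comp_ofComplex G h1
  rw [Complex.ofReal_one] at h2
  exact h2

end Fermat.Agent.S48.A
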