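/-
S48 (Deligne-Serre), node A (nebentypus).  Sub-architect: helper166.
Existence of elements of `Γ₀(N)`, `Γ₁(N)` with prescribed congruences.   TASK A-2 (helper228).
-/
import Fermat.Agent.S48.A.Basic

set_option autoImplicit false

namespace Fermat.Agent.S48.A

open CongruenceSubgroup UpperHalfPlane ModularForm
open scoped MatrixGroups ModularForm

variable {N p : ℕ}

/-- An element of `Γ₀(N)` with prescribed lower right entry modulo `N` and upper right entry
divisible by `p`.  (CRT: choose `d ≡ u mod N`, `d ≡ 1 mod p`; then `d` is prime to `p N`, so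
`a d + b (p N) = 1`; take `!![a, - b p; N, d]`.) -/
theorem exists_mem_Gamma0_dd_eq [NeZero N] (h : Nat.Coprime p N) {u : ZMod N} (hu : IsUnit u) :
    ∃ τ : SL(2, ℤ), τ ∈ Gamma0 N ∧ dd N τ = u ∧ (p : ℤ) ∣ τ 0 1 := by
  obtain ⟨d, hdN, hdp⟩ := Nat.chineseRemainder h.symm u.val 1
  have hdu : (d : ZMod N) = u := by
    rw [(ZMod.natCast_eq_natCast_iff d u.val N).2 hdN, ZMod.natCast_zmod_val]
  have hcN : Nat.Coprime d N := by
    rw [← ZMod.isUnit_iff_coprime, hdu]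
    exact hu
  have hcp : Nat.Coprime d p := by
    have := hdp.gcd_eq
    rw [Nat.gcd_one_left] at this
    exact this
  have hc : IsCoprime (d : ℤ) ((p * N : ℕ) : ℤ) :=
    Nat.isCoprime_iff_coprime.2 (Nat.Coprime.mul_right hcp hcN)
  obtain ⟨a, b, hab⟩ := hc
  have hdet : (!![a, -(b * p); (N : ℤ), (d : ℤ)] : Matrix (Fin 2) (Fin 2) ℤ).det = 1 := by
    rw [Matrix.det_fin_two_of]
    push_cast at hab
    linear_combination hab
  refine ⟨⟨!![a, -(b * p); (N : ℤ), (d : ℤ)], hdet⟩, ?_, ?_, ?_⟩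
  · rw [Gamma0_mem]
    change (((N : ℤ) : ℤ) : ZMod N) = 0
    simp
  · change (((d : ℤ) : ℤ) : ZMod N) = u
    simpa using hdu
  · change (p : ℤ) ∣ -(b * p)
    exact (Dvd.intro_left b rfl).neg_right

/-- An element of `Γ₁(N)` with lower right entry divisible by `p`.  (CRT: `d ≡ 1 mod N`,
`d ≡ 0 mod p`; `a d + b N = 1`; take `!![a, - b; N, d]`.) -/
theorem exists_mem_Gamma1_dvd [NeZero N] (h : Nat.Coprime p N) :
    ∃ γ : SL(2, ℤ), γ ∈ Gamma1 N ∧ (p : ℤ) ∣ γ 1 1 := by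
  obtain ⟨d, hdN, hdp⟩ := Nat.chineseRemainder h.symm 1 0
  have hdu : (d : ZMod N) = 1 := by
    rw [(ZMod.natCast_eq_natCast_iff d 1 N).2 hdN, Nat.cast_one]
  have hcN : Nat.Coprime d N := by
    rw [← ZMod.isUnit_iff_coprime, hdu]
    exact isUnit_one
  have hc : IsCoprime (d : ℤ) (N : ℤ) := Nat.isCoprime_iff_coprime.2 hcN
  obtain ⟨a, b, hab⟩ := hc
  have hdet : (!![a, -b; (N : ℤ), (d : ℤ)] : Matrix (Fin 2) (Fin 2) ℤ).det = 1 := by
    rw [Matrix.det_fin_two_of]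
    linear_combination hab
  refine ⟨⟨!![a, -b; (N : ℤ), (d : ℤ)], hdet⟩, ?_, ?_⟩
  · rw [mem_Gamma1_iff]
    constructor
    · rw [Gamma0_mem]
      change (((N : ℤ) : ℤ) : ZMod N) = 0
      simp
    · change (((d : ℤ) : ℤ) : ZMod N) = 1
      simpa using hdu
  · change (p : ℤ) ∣ (d : ℤ)
    exact Int.natCast_dvd_natCast.2 ((Nat.modEq_zero_iff_dvd).1 hdp)

end Fermat.Agent.S48.A
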