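/-
S48 (Deligne-Serre), node A (nebentypus).  Sub-architect: helper166.
The true Hecke operator `T_p = U_p + V_p ⟨p⟩` preserves `Γ₁(N)`-invariance.   TASK A-4.
-/
import Fermat.Agent.S48.A.Basic
import Fermat.Prelude.Thm_ModularForm_heckeT_slash_eq_self_of_mem_Gamma0

set_option autoImplicit false

namespace Fermat.Agent.S48.A

open CongruenceSubgroup UpperHalfPlane ModularForm
open scoped MatrixGroups ModularForm
open P2MW.S_ModularForm_heckeT_slash_eq_self_of_mem_Gamma0.ModularForm.HeckeSlashInvariance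

/-- `u(∞) = p`, `u(j) = 1`. -/
def uu (N p : ℕ) (x : OnePoint (ZMod p)) : ZMod N := x.elim (p : ZMod N) (fun _ => 1)

theorem uu_infty (N p : ℕ) : uu N p (OnePoint.infty) = (p : ZMod N) := rfl

theorem uu_coe (N p : ℕ) (j : ZMod p) : uu N p (j : OnePoint (ZMod p)) = 1 := rfl

/-- second row of a product `A * mapGL g`. -/
theorem row_entries {A B : GL (Fin 2) ℝ} (h : A = B) (j : Fin 2) :
    (A : Matrix (Fin 2) (Fin 2) ℝ) 1 j = (B : Matrix (Fin 2) (Fin 2) ℝ) 1 j := by
  rw [h]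

/-- Reading off the lower right entry from the matrix identity of the Prelude lemma
`heckeRep_mul` (four cases `x, y ∈ {∞, j}`; compare the second rows). -/
theorem uu_mul_dd {N p : ℕ} (hp : p ≠ 0) {g g' : SL(2, ℤ)} (hg : g ∈ Gamma0 N)
    (hg' : g' ∈ Gamma0 N) {x y : OnePoint (ZMod p)}
    (h : heckeRep p x * Matrix.SpecialLinearGroup.mapGL ℝ g
      = Matrix.SpecialLinearGroup.mapGL ℝ g' * heckeRep p y) :
    uu N p x * dd N g' = uu N p y * dd N g := by
  have hc : ((g 1 0 : ℤ) : ZMod N) = 0 := Gamma0_mem.mp hg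
  have hc' : ((g' 1 0 : ℤ) : ZMod N) = 0 := Gamma0_mem.mp hg'
  have hpR : (p : ℝ) ≠ 0 := by exact_mod_cast hp
  have h0 := row_entries h 0
  have h1 := row_entries h 1
  induction x using OnePoint.rec with
  | infty =>
    induction y using OnePoint.rec with
    | infty =>
      rw [heckeRep_infty] at h0 h1
      simp [hp, Matrix.mul_apply, Fin.sum_univ_two] at h0 h1
      rw [dd, dd, h1]
    | coe j' =>
      rw [heckeRep_infty, heckeRep_coe] at h0 h1
      simp [hp, Matrix.mul_apply, Fin.sum_univ_two] at h0 h1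
      have h1' : g 1 1 = g' 1 0 * (j'.val : ℤ) + g' 1 1 * (p : ℤ) := by exact_mod_cast h1
      have h2 := congrArg (Int.cast : ℤ → ZMod N) h1'
      push_cast at h2
      rw [hc', zero_mul, zero_add] at h2
      rw [uu_infty, uu_coe, dd, dd, h2, one_mul, mul_comm]
  | coe j =>
    induction y using OnePoint.rec with
    | infty =>
      rw [heckeRep_infty, heckeRep_coe] at h0 h1
      simp [hp, Matrix.mul_apply, Fin.sum_univ_two] at h0 h1
      have h1' : (p : ℤ) * g 1 1 = g' 1 1 := by exact_mod_cast h1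
      have h2 := congrArg (Int.cast : ℤ → ZMod N) h1'
      push_cast at h2
      rw [uu_infty, uu_coe, dd, dd, ← h2, one_mul]
    | coe j' =>
      rw [heckeRep_coe, heckeRep_coe] at h0 h1
      simp [hp, Matrix.mul_apply, Fin.sum_univ_two] at h0 h1
      have h0' : (p : ℤ) * g 1 0 = g' 1 0 := by exact_mod_cast h0
      have h1' : (p : ℤ) * g 1 1 = g' 1 0 * (j'.val : ℤ) + g' 1 1 * (p : ℤ) := by
        exact_mod_cast h1
      have hpZ : (p : ℤ) ≠ 0 := by exact_mod_cast hp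
      have h3 : g 1 1 = g 1 0 * (j'.val : ℤ) + g' 1 1 := by
        apply mul_left_cancel₀ hpZ
        rw [h1', ← h0']
        ring
      have h2 := congrArg (Int.cast : ℤ → ZMod N) h3
      push_cast at h2
      rw [hc, zero_mul, zero_add] at h2
      rw [uu_coe, uu_coe, dd, dd, h2]

/-- `δ(∞) = σ`, `δ(j) = 1`. -/
def del (p : ℕ) (σ : SL(2, ℤ)) (x : OnePoint (ZMod p)) : SL(2, ℤ) := x.elim σ (fun _ => 1)

theorem del_mem {N p : ℕ} {σ : SL(2, ℤ)} (hσ : σ ∈ Gamma0 N) (x : OnePoint (ZMod p)) :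
    del p σ x ∈ Gamma0 N := by
  induction x using OnePoint.rec with
  | infty => exact hσ
  | coe j => exact Subgroup.one_mem _

theorem dd_del {N p : ℕ} {σ : SL(2, ℤ)} (hσp : dd N σ = (p : ZMod N)) (x : OnePoint (ZMod p)) :
    dd N (del p σ x) = uu N p x := by
  induction x using OnePoint.rec with
  | infty => exact hσp
  | coe j => exact dd_one

/-- `T_p f = U_p f + (f ∣ σ_p) ∣ diag(p,1)` is invariant under `Γ₁(N)`. -/
theorem inv1_heckeT {N : ℕ} (k : ℤ) {p : ℕ} (hp : p.Prime) (hpN : ¬ p ∣ N) {f : ℍ → ℂ}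
    (hf : Inv1 N k f) {σ : SL(2, ℤ)} (hσ : σ ∈ Gamma0 N) (hσp : dd N σ = (p : ZMod N)) :
    Inv1 N k (heckeU k p f + (f ∣[k] σ) ∣[k] heckeDiagMatrix p) := by
  have : Fact p.Prime := ⟨hp⟩
  have : NeZero p := ⟨hp.ne_zero⟩
  intro γ hγ
  have hγ0 : γ ∈ Gamma0 N := Gamma1_in_Gamma0 N hγ
  have hγd : dd N γ = 1 := (mem_Gamma1_iff.mp hγ).2
  have hcN : (N : ℤ) ∣ γ 1 0 := (ZMod.intCast_zmod_eq_zero_iff_dvd _ _).mp (Gamma0_mem.mp hγ0)
  have hsum : heckeU k p f + (f ∣[k] σ) ∣[k] heckeDiagMatrix p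
      = ∑ x : OnePoint (ZMod p), (f ∣[k] del p σ x) ∣[k] heckeRep p x := by
    rw [heckeU_eq_sum_zmod, add_comm]
    refine Eq.trans ?_
      (Fintype.sum_option (fun x : OnePoint (ZMod p) ↦ (f ∣[k] del p σ x) ∣[k] heckeRep p x)).symm
    congr 1
    refine Finset.sum_congr rfl fun j _ => ?_
    change _ = (f ∣[k] (1 : SL(2, ℤ))) ∣[k] heckeMatrix p j.val
    rw [SlashAction.slash_one]
  rw [hsum, ModularForm.SL_slash, SlashAction.sum_slash]
  calc ∑ x : OnePoint (ZMod p),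
        ((f ∣[k] del p σ x) ∣[k] heckeRep p x) ∣[k] (Matrix.SpecialLinearGroup.mapGL ℝ γ)
      = ∑ x : OnePoint (ZMod p),
          (f ∣[k] del p σ (redMatrix p γ • x)) ∣[k] heckeRep p (redMatrix p γ • x) := by
        refine Finset.sum_congr rfl fun x _ => ?_
        obtain ⟨g', hg', hmul⟩ := heckeRep_mul hpN γ hcN x
        have hg'N : g' ∈ Gamma0 N :=
          Gamma0_mem.mpr ((ZMod.intCast_zmod_eq_zero_iff_dvd _ _).mpr hg')
        have hu := uu_mul_dd (N := N) hp.ne_zero hγ0 hg'N hmul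
        rw [hγd, mul_one] at hu
        rw [← SlashAction.slash_mul, hmul, SlashAction.slash_mul]
        congr 1
        change (f ∣[k] del p σ x) ∣[k] g' = _
        rw [← SlashAction.slash_mul]
        refine hf.slash_eq (Subgroup.mul_mem _ (del_mem hσ x) hg'N) (del_mem hσ _) ?_
        rw [dd_mul (del_mem hσ x), dd_del hσp, dd_del hσp, hu]
    _ = ∑ x : OnePoint (ZMod p), (f ∣[k] del p σ x) ∣[k] heckeRep p x :=
        Equiv.sum_comp (MulAction.toPerm (redMatrix p γ))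
          (fun x ↦ (f ∣[k] del p σ x) ∣[k] heckeRep p x)

end Fermat.Agent.S48.A
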