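/-
S48 (Deligne-Serre), node A (nebentypus).  Sub-architect: helper166.
The analytic input: exponential decay and the scaling relation force `g = 0`.   TASK A-7 (helper228).
-/
import Fermat.Agent.S48.A.Basic

set_option autoImplicit false

namespace Fermat.Agent.S48.A

open CongruenceSubgroup UpperHalfPlane ModularForm Asymptotics
open scoped MatrixGroups ModularForm

private theorem tendsto_scaling {p : ℕ} (hp : 1 < p) {b C : ℝ} (hb : 0 < b) (hC : 0 < C) :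
    Filter.Tendsto (fun n : ℕ => (p : ℝ) ^ n * (C * Real.exp (-b * (p : ℝ) ^ (2 * n))))
      Filter.atTop (nhds 0) := by
  have hp1 : (1 : ℝ) < p := by exact_mod_cast hp
  have hX : Filter.Tendsto (fun n : ℕ => (p : ℝ) ^ (2 * n)) Filter.atTop Filter.atTop := by
    have h2 : (1 : ℝ) < (p : ℝ) ^ 2 := one_lt_pow₀ hp1 two_ne_zero
    simpa [pow_mul] using tendsto_pow_atTop_atTop_of_one_lt h2
  have hφ := (tendsto_rpow_mul_exp_neg_mul_atTop_nhds_zero 1 b hb).comp hX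
  have hφ' := hφ.const_mul C
  rw [mul_zero] at hφ'
  refine squeeze_zero (fun n => by positivity) (fun n => ?_) hφ'
  simp only [Function.comp_apply, Real.rpow_one]
  have h1 : (p : ℝ) ^ n ≤ (p : ℝ) ^ (2 * n) := pow_le_pow_right₀ hp1.le (by omega)
  have h2 : 0 ≤ C * Real.exp (-b * (p : ℝ) ^ (2 * n)) := by positivity
  calc (p : ℝ) ^ n * (C * Real.exp (-b * (p : ℝ) ^ (2 * n)))
      ≤ (p : ℝ) ^ (2 * n) * (C * Real.exp (-b * (p : ℝ) ^ (2 * n))) :=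
        mul_le_mul_of_nonneg_right h1 h2
    _ = C * ((p : ℝ) ^ (2 * n) * Real.exp (-b * (p : ℝ) ^ (2 * n))) := by ring

/-- `‖g τ‖ = p^n ‖g τ'‖ ≤ C p^n exp (- c p^(2n) Im τ) → 0`. -/
theorem eq_zero_of_scaling {g : ℍ → ℂ} {p : ℕ} (hp : 1 < p) {c : ℝ} (hc : 0 < c)
    (hdecay : g =O[atImInfty] fun τ => Real.exp (-c * τ.im))
    (h : ∀ m : ℕ, ∃ n : ℕ, m ≤ n ∧ ∀ τ : ℍ, ∃ τ' : ℍ, τ'.im = (p : ℝ) ^ (2 * n) * τ.im ∧
      g τ = (p : ℂ) ^ n * g τ') : g = 0 := by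
  obtain ⟨C, hC, hCb⟩ := hdecay.exists_pos
  rw [IsBigOWith, Filter.Eventually, atImInfty_mem] at hCb
  obtain ⟨A, hA⟩ := hCb
  have hp1 : (1 : ℝ) < p := by exact_mod_cast hp
  funext τ
  by_contra hne
  have hδ : 0 < ‖g τ‖ := norm_pos_iff.2 hne
  have hy : 0 < τ.im := τ.im_pos
  have hb : 0 < c * τ.im := mul_pos hc hy
  have ht := tendsto_scaling hp hb hC
  have hev1 : ∀ᶠ n : ℕ in Filter.atTop,
      (p : ℝ) ^ n * (C * Real.exp (-(c * τ.im) * (p : ℝ) ^ (2 * n))) < ‖g τ‖ :=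
    ht.eventually (gt_mem_nhds hδ)
  have hX : Filter.Tendsto (fun n : ℕ => (p : ℝ) ^ (2 * n) * τ.im) Filter.atTop Filter.atTop := by
    have h2 : (1 : ℝ) < (p : ℝ) ^ 2 := one_lt_pow₀ hp1 two_ne_zero
    have h3 : Filter.Tendsto (fun n : ℕ => (p : ℝ) ^ (2 * n)) Filter.atTop Filter.atTop := by
      simpa [pow_mul] using tendsto_pow_atTop_atTop_of_one_lt h2
    exact h3.atTop_mul_const hy
  have hev2 : ∀ᶠ n : ℕ in Filter.atTop, A ≤ (p : ℝ) ^ (2 * n) * τ.im :=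
    hX.eventually (Filter.eventually_ge_atTop A)
  obtain ⟨m, hm⟩ := Filter.eventually_atTop.1 (hev1.and hev2)
  obtain ⟨n, hmn, hn⟩ := h m
  obtain ⟨τ', him, hg⟩ := hn τ
  obtain ⟨h1, h2⟩ := hm n hmn
  have h3 : ‖g τ'‖ ≤ C * ‖Real.exp (-c * τ'.im)‖ := hA τ' (by rw [him]; exact h2)
  rw [Real.norm_of_nonneg (Real.exp_pos _).le, him] at h3
  have h4 : ‖g τ‖ = (p : ℝ) ^ n * ‖g τ'‖ := by
    rw [hg, norm_mul, norm_pow, Complex.norm_natCast]
  have h5 : -c * ((p : ℝ) ^ (2 * n) * τ.im) = -(c * τ.im) * (p : ℝ) ^ (2 * n) := by ring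
  rw [h5] at h3
  have h6 : (p : ℝ) ^ n * ‖g τ'‖ ≤
      (p : ℝ) ^ n * (C * Real.exp (-(c * τ.im) * (p : ℝ) ^ (2 * n))) :=
    mul_le_mul_of_nonneg_left h3 (by positivity)
  linarith

/-- Exponential decay of `f ∣ σ` for a cusp form `f` on `Γ₁(N)` and `σ ∈ Γ₀(N)`: Mathlib's
`UpperHalfPlane.IsZeroAtImInfty.exp_decay_atImInfty` with `CuspFormClass.zero_at_infty_slash`,
`ModularFormClass.bdd_at_infty_slash`, `MDifferentiable.slash`, `Inv1.periodic`. -/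
theorem isBigO_slash {N : ℕ} [NeZero N] {k : ℤ} (f : CuspForm (Gamma1 N) k) {σ : SL(2, ℤ)}
    (hσ : σ ∈ Gamma0 N) :
    ((f : ℍ → ℂ) ∣[k] σ) =O[atImInfty] fun τ => Real.exp (-(2 * Real.pi) * τ.im) := by
  have hzero : IsZeroAtImInfty ((f : ℍ → ℂ) ∣[k] σ) := CuspFormClass.zero_at_infty_slash f σ
  have hbdd : IsBoundedAtImInfty ((f : ℍ → ℂ) ∣[k] σ) := ModularFormClass.bdd_at_infty_slash f σ
  have hper : Function.Periodic (((f : ℍ → ℂ) ∣[k] σ) ∘ ofComplex) 1 :=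
    ((inv1_coe f).slash hσ).periodic
  have hhol : MDifferentiable (modelWithCornersSelf ℂ ℂ) (modelWithCornersSelf ℂ ℂ)
      ((f : ℍ → ℂ) ∣[k] σ) := by
    rw [ModularForm.SL_slash]
    exact f.holo'.slash k _
  have := hzero.exp_decay_atImInfty one_pos hper hhol hbdd
  refine this.congr_right fun τ => ?_
  congr 1
  ring

end Fermat.Agent.S48.A
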