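/-
S48 (Deligne-Serre), node A (nebentypus).  Sub-architect: helper166.
The formal Hecke relations as an identity of functions on the upper half plane.   TASK A-3.
-/
import Fermat.Agent.S48.Defs
import Fermat.Agent.S48.A.Basic
import Fermat.Prelude.Thm_UpperHalfPlane_eq_of_forall_qCoeff_eq
import Fermat.Prelude.Thm_UpperHalfPlane_qCoeff_heckeT
import Fermat.Prelude.Thm_UpperHalfPlane_qCoeff_heckeU
import Fermat.Prelude.Thm_ModularForm_periodic_heckeU_comp_ofComplex
import Fermat.Prelude.Thm_ModularForm_periodic_heckeT_comp_ofComplex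
import Fermat.Prelude.Thm_ModularForm_mdifferentiable_heckeU
import Fermat.Prelude.Thm_ModularForm_mdifferentiable_heckeT
import Fermat.Prelude.Thm_ModularForm_isBoundedAtImInfty_heckeU
import Fermat.Prelude.Thm_ModularForm_isBoundedAtImInfty_heckeT

set_option autoImplicit false

namespace Fermat.Agent.S48.A

open CongruenceSubgroup UpperHalfPlane ModularForm
open scoped MatrixGroups ModularForm Manifold

/-- `1`-periodic, holomorphic and bounded at `i∞`. -/
structure Nice (f : ℍ → ℂ) : Prop where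
  per : Function.Periodic (f ∘ ofComplex) 1
  hol : MDifferentiable 𝓘(ℂ) 𝓘(ℂ) f
  bdd : IsBoundedAtImInfty f

theorem Nice.add {f g : ℍ → ℂ} (hf : Nice f) (hg : Nice g) : Nice (f + g) where
  per := fun z => by
    have h1 := hf.per z
    have h2 := hg.per z
    simp only [Function.comp_apply, Pi.add_apply] at h1 h2 ⊢
    rw [h1, h2]
  hol := hf.hol.add hg.hol
  bdd := hf.bdd.add hg.bdd

theorem Nice.smul {f : ℍ → ℂ} (hf : Nice f) (c : ℂ) : Nice (c • f) where
  per := fun z => by
    have h1 := hf.per z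
    simp only [Function.comp_apply, Pi.smul_apply] at h1 ⊢
    rw [h1]
  hol := hf.hol.const_smul c
  bdd := hf.bdd.const_smul_left c

theorem Nice.analyticAt {f : ℍ → ℂ} (hf : Nice f) : AnalyticAt ℂ (cuspFunction 1 f) 0 :=
  analyticAt_cuspFunction_zero one_pos (by simpa using hf.per) hf.hol hf.bdd

theorem Nice.qCoeff_add {f g : ℍ → ℂ} (hf : Nice f) (hg : Nice g) (n : ℕ) :
    ModularFormClass.qCoeff (f + g) n
      = ModularFormClass.qCoeff f n + ModularFormClass.qCoeff g n := by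
  simp only [ModularFormClass.qCoeff]
  rw [qExpansion_add hf.analyticAt hg.analyticAt, map_add]

theorem Nice.qCoeff_smul {f : ℍ → ℂ} (hf : Nice f) (c : ℂ) (n : ℕ) :
    ModularFormClass.qCoeff (c • f) n = c * ModularFormClass.qCoeff f n := by
  simp only [ModularFormClass.qCoeff]
  rw [qExpansion_smul hf.analyticAt, PowerSeries.coeff_smul, smul_eq_mul]

theorem nice_coe {N : ℕ} [NeZero N] {k : ℤ} (f : CuspForm (Gamma1 N) k) : Nice (f : ℍ → ℂ) where
  per := (inv1_coe f).periodic
  hol := CuspFormClass.holo f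
  bdd := ModularFormClass.bdd_at_infty f

theorem Nice.heckeU {f : ℍ → ℂ} (hf : Nice f) (k : ℤ) (p : ℕ) : Nice (heckeU k p f) where
  per := periodic_heckeU_comp_ofComplex hf.per k p
  hol := mdifferentiable_heckeU hf.hol k p
  bdd := isBoundedAtImInfty_heckeU hf.bdd k p

theorem Nice.heckeT {f : ℍ → ℂ} (hf : Nice f) (k : ℤ) (p : ℕ) : Nice (heckeT k p f) where
  per := periodic_heckeT_comp_ofComplex hf.per k p
  hol := mdifferentiable_heckeT hf.hol k p
  bdd := isBoundedAtImInfty_heckeT hf.bdd k p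

/-- `U_p f + ε(p) V_p f = a_p f` as functions (weight one, so `f ∣[1] diag(p,1) = f(p τ)`).
Proof: write `f ∣ D = heckeT 1 p f - heckeU 1 p f`, so that the left side is
`(1 - ε p) • heckeU 1 p f + ε p • heckeT 1 p f`; all functions are `1`-periodic, holomorphic and
bounded at `i∞` (Prelude), `qCoeff` is linear on such functions (Mathlib `qExpansion_add`,
`qExpansion_smul`, `analyticAt_cuspFunction_zero`); compare coefficients with
`UpperHalfPlane.qCoeff_heckeU`, `UpperHalfPlane.qCoeff_heckeT` and conclude with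
`UpperHalfPlane.eq_of_forall_qCoeff_eq`. -/
theorem heckeU_add_smul_diag {N : ℕ} [NeZero N] (ε : DirichletCharacter ℂ N)
    (f : CuspForm (Gamma1 N) 1) (hT : HeckeRel N ε (ModularFormClass.qCoeff f))
    {p : ℕ} (hp : p.Prime) (hpN : ¬ p ∣ N) :
    heckeU 1 p (f : ℍ → ℂ) + ε (p : ZMod N) • ((f : ℍ → ℂ) ∣[(1 : ℤ)] heckeDiagMatrix p)
      = ModularFormClass.qCoeff f p • (f : ℍ → ℂ) := by
  have hf : Nice (f : ℍ → ℂ) := nice_coe f
  have hU := hf.heckeU 1 p
  have hTT := hf.heckeT 1 p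
  have e1 : heckeU 1 p (f : ℍ → ℂ) + ε (p : ZMod N) • ((f : ℍ → ℂ) ∣[(1 : ℤ)] heckeDiagMatrix p)
      = (1 - ε (p : ZMod N)) • heckeU 1 p (f : ℍ → ℂ)
        + ε (p : ZMod N) • heckeT 1 p (f : ℍ → ℂ) := by
    rw [heckeT_eq_heckeU_add, smul_add, sub_smul, one_smul]
    abel
  rw [e1]
  have hL := (hU.smul (1 - ε (p : ZMod N))).add (hTT.smul (ε (p : ZMod N)))
  have hR := hf.smul (ModularFormClass.qCoeff f p)
  refine UpperHalfPlane.eq_of_forall_qCoeff_eq hL.per hL.hol hL.bdd hR.per hR.hol hR.bdd ?_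
  intro n
  rw [(hU.smul _).qCoeff_add (hTT.smul _), hU.qCoeff_smul, hTT.qCoeff_smul, hf.qCoeff_smul,
    UpperHalfPlane.qCoeff_heckeU hf.per hf.hol hf.bdd 1 hp.ne_zero,
    UpperHalfPlane.qCoeff_heckeT hf.per hf.hol hf.bdd 1 hp.ne_zero,
    coeffHeckeU_apply, coeffHeckeT_apply, ← hT p hp hpN n, mul_comm n p]
  simp only [sub_self, zpow_zero, one_mul]
  ring

end Fermat.Agent.S48.A
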