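/-
S48 (Deligne-Serre), node A (nebentypus).  Sub-architect: helper166.
The operator `V_p` in weight one and the class of functions `g` such that `g` and `V_p g` are both
invariant under `Γ₁(N)`.
-/
import Fermat.Agent.S48.A.Basic

set_option autoImplicit false

namespace Fermat.Agent.S48.A

open CongruenceSubgroup UpperHalfPlane ModularForm
open scoped MatrixGroups ModularForm

/-- `V_p h = h ∣[1] diag(p,1)`, i.e. `τ ↦ h (p τ)`. -/
noncomputable def VV (p : ℕ) (h : ℍ → ℂ) : ℍ → ℂ := h ∣[(1 : ℤ)] heckeDiagMatrix p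

/-- `g` and `V_p g` are invariant under `Γ₁(N)` in weight one. -/
def Inv1V (N p : ℕ) (g : ℍ → ℂ) : Prop := Inv1 N 1 g ∧ Inv1 N 1 (VV p g)

end Fermat.Agent.S48.A
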