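/-
S48 (Deligne-Serre), node A (nebentypus).  Sub-architect: helper166.
The two matrix computations behind the key lemma.   TASK A-5 (helper228).
-/
import Fermat.Agent.S48.A.KeyDefs
import Fermat.Agent.S48.A.Exists

set_option autoImplicit false

namespace Fermat.Agent.S48.A

open CongruenceSubgroup UpperHalfPlane ModularForm Matrix.SpecialLinearGroup
open scoped MatrixGroups ModularForm

variable {N p : ℕ} {g : ℍ → ℂ}

private theorem det_eq (γ : SL(2, ℤ)) : γ 0 0 * γ 1 1 - γ 0 1 * γ 1 0 = 1 := by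
  have := γ.det_coe
  rwa [Matrix.det_fin_two] at this

/-- `τ * diag(p,1) = diag(p,1) * τ'`. -/
private theorem mul_diag_eq (hp : p ≠ 0) (τ τ' : SL(2, ℤ)) (h00 : τ' 0 0 = τ 0 0)
    (h01 : τ 0 1 = p * τ' 0 1) (h10 : τ' 1 0 = p * τ 1 0) (h11 : τ' 1 1 = τ 1 1) :
    mapGL ℝ τ * heckeDiagMatrix p = heckeDiagMatrix p * mapGL ℝ τ' := by
  ext i j
  fin_cases i <;> fin_cases j <;>
    simp [hp, Matrix.mul_apply, Fin.sum_univ_two, h00, h01, h10, h11, mul_comm]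

/-- `diag(p,1) * γ₁ = γ₂ * diag(1,p)`. -/
private theorem diag_mul_eq (hp : p ≠ 0) (γ₁ γ₂ : SL(2, ℤ)) (h00 : γ₂ 0 0 = p * γ₁ 0 0)
    (h01 : γ₂ 0 1 = γ₁ 0 1) (h10 : γ₂ 1 0 = γ₁ 1 0) (h11 : γ₁ 1 1 = p * γ₂ 1 1) :
    heckeDiagMatrix p * mapGL ℝ γ₁ = mapGL ℝ γ₂ * heckeMatrix p 0 := by
  ext i j
  fin_cases i <;> fin_cases j <;>
    simp [hp, Matrix.mul_apply, Fin.sum_univ_two, h00, h01, h10, h11, mul_comm]

/-- Stability under the diamond action.  Proof: by `exists_mem_Gamma0_dd_eq` choose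
`τ = !![a, b; c, d] ∈ Γ₀(N)` with `dd τ = dd γ` and `p ∣ b`; then `g ∣ γ = g ∣ τ`
(`Inv1.slash_eq`) and `τ * diag(p,1) = diag(p,1) * τ'` with `τ' = !![a, b / p; p c, d] ∈ Γ₀(N)`, so
`V_p (g ∣ τ) = (V_p g) ∣ τ'`, which is invariant by `Inv1.slash`. -/
theorem Inv1V.slash [NeZero N] (hp : p.Prime) (hpN : ¬ p ∣ N) (hg : Inv1V N p g) {γ : SL(2, ℤ)}
    (hγ : γ ∈ Gamma0 N) : Inv1V N p (g ∣[(1 : ℤ)] γ) := by
  refine ⟨hg.1.slash hγ, ?_⟩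
  have hcop : Nat.Coprime p N := (Nat.Prime.coprime_iff_not_dvd hp).2 hpN
  obtain ⟨τ, hτ0, hτd, b', hb'⟩ := exists_mem_Gamma0_dd_eq hcop (isUnit_dd hγ)
  rw [hg.1.slash_eq hγ hτ0 hτd.symm]
  have hdet : (!![τ 0 0, b'; p * τ 1 0, τ 1 1] : Matrix (Fin 2) (Fin 2) ℤ).det = 1 := by
    rw [Matrix.det_fin_two_of]
    have := det_eq τ
    rw [hb'] at this
    linear_combination this
  let τ' : SL(2, ℤ) := ⟨!![τ 0 0, b'; p * τ 1 0, τ 1 1], hdet⟩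
  have hτ' : τ' ∈ Gamma0 N := by
    rw [Gamma0_mem]
    have h10 : τ' 1 0 = p * τ 1 0 := rfl
    rw [h10]
    push_cast
    rw [Gamma0_mem.mp hτ0, mul_zero]
  have hmul := mul_diag_eq hp.ne_zero τ τ' rfl hb' rfl rfl
  have hVV : VV p (g ∣[(1 : ℤ)] τ) = (VV p g) ∣[(1 : ℤ)] τ' := by
    unfold VV
    rw [ModularForm.SL_slash, ModularForm.SL_slash, ← SlashAction.slash_mul,
      ← SlashAction.slash_mul]
    exact congrArg (fun M => g ∣[(1 : ℤ)] M) hmul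
  rw [hVV]
  exact hg.2.slash hτ'

/-- The key relation.  Proof: by `exists_mem_Gamma1_dvd` choose `γ₁ = !![a, b; c, d] ∈ Γ₁(N)` with
`p ∣ d`; then `diag(p,1) * γ₁ = γ₂ * diag(1,p)` with `γ₂ = !![p a, b; c, d / p] ∈ Γ₀(N)`,
`p * dd γ₂ = 1`, and `diag(1,p) = heckeMatrix p 0`.  So
`V_p g = (V_p g) ∣ γ₁ = (g ∣ γ₂) ∣ heckeMatrix p 0`; apply `∣ diag(p,1)` and use
`heckeMatrix p 0 * diag(p,1) = p • 1`, which acts in weight one as multiplication by `p⁻¹`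
(or argue pointwise with `slash_heckeMatrix_apply`, `slash_heckeDiagMatrix_apply`).
Finally `g ∣ γ = g ∣ γ₂` by `Inv1.slash_eq`. -/
theorem Inv1V.slash_eq [NeZero N] (hp : p.Prime) (hpN : ¬ p ∣ N) (hg : Inv1V N p g)
    {γ : SL(2, ℤ)} (hγ : γ ∈ Gamma0 N) (hd : (p : ZMod N) * dd N γ = 1) :
    g ∣[(1 : ℤ)] γ = (p : ℂ) • VV p (VV p g) := by
  have hcop : Nat.Coprime p N := (Nat.Prime.coprime_iff_not_dvd hp).2 hpN
  have hp0 : p ≠ 0 := hp.ne_zero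
  have hpC : (p : ℂ) ≠ 0 := by exact_mod_cast hp0
  obtain ⟨γ₁, hγ₁, d', hd'⟩ := exists_mem_Gamma1_dvd (N := N) hcop
  have hγ₁' := mem_Gamma1_iff.mp hγ₁
  have hdet : (!![p * γ₁ 0 0, γ₁ 0 1; γ₁ 1 0, d'] : Matrix (Fin 2) (Fin 2) ℤ).det = 1 := by
    rw [Matrix.det_fin_two_of]
    have := det_eq γ₁
    rw [hd'] at this
    linear_combination this
  let γ₂ : SL(2, ℤ) := ⟨!![p * γ₁ 0 0, γ₁ 0 1; γ₁ 1 0, d'], hdet⟩
  have hγ₂ : γ₂ ∈ Gamma0 N := by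
    rw [Gamma0_mem]
    exact Gamma0_mem.mp hγ₁'.1
  have hdd₂ : (p : ZMod N) * dd N γ₂ = 1 := by
    have h1 : dd N γ₁ = 1 := hγ₁'.2
    have h2 : dd N γ₂ = ((d' : ℤ) : ZMod N) := rfl
    rw [h2, ← h1]
    unfold dd
    rw [hd']
    push_cast
    rfl
  have hdd : dd N γ = dd N γ₂ := by
    calc dd N γ = dd N γ * ((p : ZMod N) * dd N γ₂) := by rw [hdd₂, mul_one]
      _ = ((p : ZMod N) * dd N γ) * dd N γ₂ := by ring
      _ = dd N γ₂ := by rw [hd, one_mul]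
  rw [hg.1.slash_eq hγ hγ₂ hdd]
  have hmul := diag_mul_eq hp0 γ₁ γ₂ rfl rfl rfl hd'
  have h1 : VV p g = (g ∣[(1 : ℤ)] γ₂) ∣[(1 : ℤ)] heckeMatrix p 0 := by
    have h2 := hg.2 γ₁ hγ₁
    rw [← h2]
    unfold VV
    rw [ModularForm.SL_slash, ModularForm.SL_slash, ← SlashAction.slash_mul,
      ← SlashAction.slash_mul]
    exact congrArg (fun M => g ∣[(1 : ℤ)] M) hmul
  funext z
  have h3 : VV p (VV p g) z = (p : ℂ)⁻¹ * (g ∣[(1 : ℤ)] γ₂) z := by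
    conv_lhs => rw [h1]
    unfold VV
    rw [slash_heckeDiagMatrix_apply 1 hp0, slash_heckeMatrix_apply 1 hp0]
    have hz : heckeMatrix p 0 • (heckeDiagMatrix p • z) = z := by
      apply UpperHalfPlane.ext
      rw [coe_heckeMatrix_smul hp0, coe_heckeDiagMatrix_smul hp0]
      field_simp
      simp
    rw [hz]
    simp
  rw [Pi.smul_apply, h3, smul_eq_mul, mul_inv_cancel_left₀ hpC]

end Fermat.Agent.S48.A
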