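/-
S48 (Deligne-Serre), node A (nebentypus).  Sub-architect: helper166.
Iteration of the key relation.   TASK A-6 (helper228).
-/
import Fermat.Agent.S48.A.KeyStep

set_option autoImplicit false

namespace Fermat.Agent.S48.A

open CongruenceSubgroup UpperHalfPlane ModularForm
open scoped MatrixGroups ModularForm

variable {N p : ℕ} {g : ℍ → ℂ}

theorem VV_smul (p : ℕ) (c : ℂ) (h : ℍ → ℂ) : VV p (c • h) = c • VV p h := by
  unfold VV
  rw [ModularForm.smul_slash, σ_heckeDiagMatrix, ContinuousAlgEquiv.refl_apply]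

theorem VV_iterate_smul (p : ℕ) (c : ℂ) (m : ℕ) (h : ℍ → ℂ) :
    (VV p)^[m] (c • h) = c • (VV p)^[m] h := by
  induction m generalizing h with
  | zero => rfl
  | succ m ih =>
    rw [Function.iterate_succ_apply, Function.iterate_succ_apply, VV_smul, ih]

/-- `V_p^m h (τ) = h (p^m τ)`. -/
theorem VV_iterate_apply (hp : p ≠ 0) (m : ℕ) (τ : ℍ) :
    ∃ τ' : ℍ, τ'.im = (p : ℝ) ^ m * τ.im ∧ ∀ h : ℍ → ℂ, ((VV p)^[m] h) τ = h τ' := by
  induction m generalizing τ with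
  | zero => exact ⟨τ, by simp, fun h => rfl⟩
  | succ m ih =>
    obtain ⟨τ', him, hτ'⟩ := ih (heckeDiagMatrix p • τ)
    refine ⟨τ', ?_, fun h => ?_⟩
    · rw [him]
      have h1 : (heckeDiagMatrix p • τ).im = (p : ℝ) * τ.im := by
        have h2 := congrArg Complex.im (coe_heckeDiagMatrix_smul hp τ)
        simpa using h2
      rw [h1, pow_succ, mul_assoc]
    · rw [Function.iterate_succ_apply']
      have h1 : VV p ((VV p)^[m] h) τ = ((VV p)^[m] h) (heckeDiagMatrix p • τ) := by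
        unfold VV
        rw [slash_heckeDiagMatrix_apply 1 hp]
        simp
      rw [h1, hτ']

/-- Induction on `n` (generalising `g`), using `Inv1V.slash` and `Inv1V.slash_eq`:
`g ∣ γ^(n+1) = (g ∣ γ) ∣ γ^n`. -/
theorem Inv1V.slash_pow_eq [NeZero N] (hp : p.Prime) (hpN : ¬ p ∣ N) (hg : Inv1V N p g)
    {γ : SL(2, ℤ)} (hγ : γ ∈ Gamma0 N) (hd : (p : ZMod N) * dd N γ = 1) (n : ℕ) :
    g ∣[(1 : ℤ)] (γ ^ n) = (p : ℂ) ^ n • (VV p)^[2 * n] g := by
  induction n generalizing g with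
  | zero =>
    simp only [pow_zero, Nat.mul_zero, Function.iterate_zero, id_eq, one_smul]
    exact SlashAction.slash_one _ _
  | succ n ih =>
    rw [pow_succ', SlashAction.slash_mul, ih (hg.slash hp hpN hγ), hg.slash_eq hp hpN hγ hd,
      VV_iterate_smul, smul_smul, ← pow_succ, show 2 * (n + 1) = 2 * n + 1 + 1 by ring,
      Function.iterate_succ_apply, Function.iterate_succ_apply]

/-- Take `γ ∈ Γ₀(N)` with `p * dd γ = 1` (`exists_mem_Gamma0_dd_eq`) and `n = φ(N) * m`: then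
`γ ^ n ∈ Γ₁(N)` (`dd_pow`, `ZMod.pow_totient`, `mem_Gamma1_iff`). -/
theorem Inv1V.scaling [NeZero N] (hp : p.Prime) (hpN : ¬ p ∣ N) (hg : Inv1V N p g) (m : ℕ) :
    ∃ n : ℕ, m ≤ n ∧ ∀ τ : ℍ, ∃ τ' : ℍ, τ'.im = (p : ℝ) ^ (2 * n) * τ.im ∧
      g τ = (p : ℂ) ^ n * g τ' := by
  have hcop : Nat.Coprime p N := (Nat.Prime.coprime_iff_not_dvd hp).2 hpN
  set u : (ZMod N)ˣ := ZMod.unitOfCoprime p hcop with hu
  have hu' : ((u : (ZMod N)ˣ) : ZMod N) = p := ZMod.coe_unitOfCoprime p hcop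
  obtain ⟨γ, hγ, hdd, -⟩ := exists_mem_Gamma0_dd_eq hcop (u := ((u⁻¹ : (ZMod N)ˣ) : ZMod N))
    (Units.isUnit _)
  have hd : (p : ZMod N) * dd N γ = 1 := by
    rw [hdd, ← hu', Units.mul_inv]
  have hφ : 0 < Nat.totient N := Nat.totient_pos.2 (Nat.pos_of_ne_zero (NeZero.ne N))
  refine ⟨Nat.totient N * m, Nat.le_mul_of_pos_left m hφ, fun τ => ?_⟩
  have hmem : γ ^ (Nat.totient N * m) ∈ Gamma1 N := by
    rw [mem_Gamma1_iff]
    refine ⟨Subgroup.pow_mem _ hγ _, ?_⟩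
    rw [dd_pow hγ, hdd, pow_mul, ← Units.val_pow_eq_pow_val, ZMod.pow_totient]
    simp
  have h1 := hg.slash_pow_eq hp hpN hγ hd (Nat.totient N * m)
  rw [hg.1 _ hmem] at h1
  obtain ⟨τ', him, hτ'⟩ := VV_iterate_apply hp.ne_zero (2 * (Nat.totient N * m)) τ
  refine ⟨τ', him, ?_⟩
  have h2 := congrFun h1 τ
  rw [Pi.smul_apply, hτ', smul_eq_mul] at h2
  exact h2

end Fermat.Agent.S48.A
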