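/-
S48 (Deligne-Serre), node A (nebentypus).  Sub-architect: helper166.
Assembly of node A.
-/
import Fermat.Agent.S48.Nodes
import Fermat.Agent.S48.A.FunId
import Fermat.Agent.S48.A.HeckeInv
import Fermat.Agent.S48.A.KeyIter
import Fermat.Agent.S48.A.Decay

set_option autoImplicit false

namespace Fermat.Agent.S48

open CongruenceSubgroup UpperHalfPlane ModularForm Asymptotics
open scoped MatrixGroups ModularForm

namespace A

/-- The case of a lower right entry congruent to a prime `p ∤ N`. -/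
theorem slash_eq_smul_of_prime {N : ℕ} [NeZero N] (ε : DirichletCharacter ℂ N)
    (f : CuspForm (Gamma1 N) 1) (hT : HeckeRel N ε (ModularFormClass.qCoeff f))
    {p : ℕ} (hp : p.Prime) (hpN : ¬ p ∣ N) {σ : SL(2, ℤ)} (hσ : σ ∈ Gamma0 N)
    (hσp : dd N σ = (p : ZMod N)) :
    (f : ℍ → ℂ) ∣[(1 : ℤ)] σ = ε (p : ZMod N) • (f : ℍ → ℂ) := by
  have hf : Inv1 N 1 (f : ℍ → ℂ) := inv1_coe f
  set g : ℍ → ℂ := (f : ℍ → ℂ) ∣[(1 : ℤ)] σ - ε (p : ZMod N) • (f : ℍ → ℂ) with hgdef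
  have hg : Inv1 N 1 g := (hf.slash hσ).sub (hf.smul _)
  have hVg : VV p g = (heckeU 1 p (f : ℍ → ℂ)
      + ((f : ℍ → ℂ) ∣[(1 : ℤ)] σ) ∣[(1 : ℤ)] heckeDiagMatrix p)
      - ModularFormClass.qCoeff f p • (f : ℍ → ℂ) := by
    rw [← heckeU_add_smul_diag ε f hT hp hpN, hgdef, VV, sub_eq_add_neg, SlashAction.add_slash,
      SlashAction.neg_slash, ModularForm.smul_slash, σ_heckeDiagMatrix]
    simp only [ContinuousAlgEquiv.refl_apply]
    abel
  have hgV : Inv1 N 1 (VV p g) := by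
    rw [hVg]
    exact (inv1_heckeT 1 hp hpN hf hσ hσp).sub (hf.smul _)
  have hdecay : g =O[atImInfty] fun τ => Real.exp (-(2 * Real.pi) * τ.im) := by
    have h1 := isBigO_slash f hσ
    have h2 := isBigO_slash f (Subgroup.one_mem (Gamma0 N))
    rw [SlashAction.slash_one] at h2
    exact h1.sub (h2.const_smul_left _)
  have h0 : g = 0 := eq_zero_of_scaling hp.one_lt (by positivity) hdecay
    (Inv1V.scaling hp hpN ⟨hg, hgV⟩)
  exact sub_eq_zero.mp h0

end A

/-- **Node A** (nebentypus). -/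
theorem nebentypus : Nebentypus := by
  intro N _ ε f _ hT γ hγ
  obtain ⟨p, hpN, hp, hpd⟩ := Nat.forall_exists_prime_gt_and_eq_mod (A.isUnit_dd hγ) N
  have hpN' : ¬ p ∣ N := fun h =>
    absurd (Nat.le_of_dvd (Nat.pos_of_ne_zero (NeZero.ne N)) h) (not_le.mpr hpN)
  have h := A.slash_eq_smul_of_prime ε f hT hp hpN' hγ hpd.symm
  rw [h, hpd]
  rfl

end Fermat.Agent.S48
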